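import Fermat.Agent.S24.FF1.H684Low
import Fermat.Agent.S24.H117.PlaceBasic

/-!
# S24 / FF1 (helper684): an embedding into Laurent series is determined by the leading
coefficient of a uniformizer

Let `v` be a place of `F/K` with residue field `K`, and let `σ τ : F →+* C((z))` be two
embeddings which agree on `K` and on some `t` with `0 < ord_v t`, and which both induce `v`
(`ord_z ∘ σ = g * ord_v = ord_z ∘ τ`).  If the leading coefficients of `σ π` and `τ π` agree for
a uniformizer `π` of `v`, then `σ = τ` (characteristic zero).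

This is the Dedekind-free replacement of "`[F_v : K((t))] = e_v`".
-/

set_option autoImplicit false

noncomputable section

open AlgebraicCurve

namespace Fermat.Agent.S24.H684

variable {K F : Type*} [Field K] [Field F] [Algebra K F]
variable {C : Type*} [Field C]

/-- Two embeddings `σ, τ` of `F` into `C((z))` inducing the same place `v` with the same
multiplicity `g`, agreeing on the constants; the residue field of `v` is `K`. -/
structure EmbPair (v : Place K F) (σ τ : F →+* LaurentSeries C) (ι : K →+* C) (g : ℕ) :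
    Prop where
  g_pos : 0 < g
  σ_const : ∀ c : K, σ (algebraMap K F c) = HahnSeries.C (ι c)
  τ_const : ∀ c : K, τ (algebraMap K F c) = HahnSeries.C (ι c)
  σ_order : ∀ f : F, (σ f).order = (g : ℤ) * v.ord f
  τ_order : ∀ f : F, (τ f).order = (g : ℤ) * v.ord f
  res : ∀ f : F, 0 ≤ v.ord f →
    ∃ c : K, f = algebraMap K F c ∨ 0 < v.ord (f - algebraMap K F c)

variable {v : Place K F} {σ τ : F →+* LaurentSeries C} {ι : K →+* C} {g : ℕ}

theorem delta_mul (σ τ : F →+* LaurentSeries C) (a b : F) :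
    σ (a * b) - τ (a * b) = (σ a - τ a) * σ b + τ a * (σ b - τ b) := by
  rw [map_mul, map_mul]; ring

namespace EmbPair

theorem low_σ (h : EmbPair v σ τ ι g) (f : F) : Low (σ f) ((g : ℤ) * v.ord f) :=
  low_of_le_order (h.σ_order f).ge

theorem low_τ (h : EmbPair v σ τ ι g) (f : F) : Low (τ f) ((g : ℤ) * v.ord f) :=
  low_of_le_order (h.τ_order f).ge

theorem low_σ_zero (h : EmbPair v σ τ ι g) {f : F} (hf : 0 ≤ v.ord f) : Low (σ f) 0 :=
  (h.low_σ f).mono (mul_nonneg (Int.natCast_nonneg g) hf)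

theorem low_τ_zero (h : EmbPair v σ τ ι g) {f : F} (hf : 0 ≤ v.ord f) : Low (τ f) 0 :=
  (h.low_τ f).mono (mul_nonneg (Int.natCast_nonneg g) hf)

/-- Step 1 (inductive form). -/
theorem low_delta_aux (h : EmbPair v σ τ ι g) {π : F} (hπ : v.ord π = 1) {d : ℤ}
    (hD : Low (σ π - τ π) (g + d)) (k : ℕ) :
    ∀ f : F, 0 ≤ v.ord f → Low (σ f - τ f) (min ((g : ℤ) * k) (d + g)) := by
  have hg0 : (0 : ℤ) ≤ g := Int.natCast_nonneg g
  induction k with
  | zero =>
    intro f hf
    refine ((h.low_σ_zero hf).sub (h.low_τ_zero hf)).mono ?_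
    simp only [Nat.cast_zero, mul_zero]
    exact min_le_left _ _
  | succ k ih =>
    intro f hf
    have hπ0 : π ≠ 0 := H117.ne_zero_of_ord_ne_zero v (by rw [hπ]; exact one_ne_zero)
    obtain ⟨c, hc | hc⟩ := h.res f hf
    · rw [hc, h.σ_const, h.τ_const, sub_self]
      exact low_zero _
    · have hfc0 : f - algebraMap K F c ≠ 0 := H117.ne_zero_of_ord_ne_zero v hc.ne'
      set f₁ : F := (f - algebraMap K F c) / π with hf₁
      have hf₁ord : 0 ≤ v.ord f₁ := by
        rw [hf₁, H117.ord_div v hfc0 hπ0, hπ]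
        omega
      have hfeq : f = algebraMap K F c + π * f₁ := by
        rw [hf₁]; field_simp; ring
      have hδ : σ f - τ f = (σ π - τ π) * σ f₁ + τ π * (σ f₁ - τ f₁) := by
        conv_lhs => rw [hfeq]
        rw [map_add, map_add, h.σ_const, h.τ_const, add_sub_add_left_eq_sub, delta_mul]
      rw [hδ]
      have h1 : Low ((σ π - τ π) * σ f₁) ((g : ℤ) + d + 0) := hD.mul (h.low_σ_zero hf₁ord)
      have hτπ : Low (τ π) (g : ℤ) := by
        have := h.low_τ π
        rwa [hπ, mul_one] at this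
      have h2 : Low (τ π * (σ f₁ - τ f₁)) ((g : ℤ) + min ((g : ℤ) * k) (d + g)) :=
        hτπ.mul (ih f₁ hf₁ord)
      have hk : (g : ℤ) * ((k + 1 : ℕ) : ℤ) = (g : ℤ) * k + g := by push_cast; ring
      rw [hk]
      refine (h1.mono ?_).add (h2.mono ?_)
      · have := min_le_right ((g : ℤ) * k + g) (d + g)
        omega
      · rcases le_total ((g : ℤ) * k) (d + g) with hle | hle
        · rw [min_eq_left hle]
          exact le_trans (min_le_left _ _) (by omega)
        · rw [min_eq_right hle]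
          exact le_trans (min_le_right _ _) (by omega)

/-- Step 1: if `σ π - τ π` vanishes below `g + d`, then `σ f - τ f` vanishes below `d + g`
for every `f` integral at `v`. -/
theorem low_delta (h : EmbPair v σ τ ι g) {π : F} (hπ : v.ord π = 1) {d : ℤ} (hd : 0 ≤ d)
    (hD : Low (σ π - τ π) (g + d)) {f : F} (hf : 0 ≤ v.ord f) :
    Low (σ f - τ f) (d + g) := by
  have hg1 : (1 : ℤ) ≤ g := by exact_mod_cast h.g_pos
  have := h.low_delta_aux hπ hD (d + g).toNat f hf
  refine this.mono ?_
  have hk : ((d + g).toNat : ℤ) = d + g := Int.toNat_of_nonneg (by omega)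
  rw [hk]
  refine le_min ?_ le_rfl
  have : (0 : ℤ) ≤ d + g := by omega
  nlinarith

/-- Step 3: if `σ π = τ π` for a uniformizer `π`, then `σ = τ`. -/
theorem eq_of_uniformizer_eq (h : EmbPair v σ τ ι g) {π : F} (hπ : v.ord π = 1)
    (hπeq : σ π = τ π) : σ = τ := by
  have hint : ∀ f : F, 0 ≤ v.ord f → σ f = τ f := by
    intro f hf
    apply sub_eq_zero.mp
    apply eq_zero_of_forall_low
    intro k
    have hD : Low (σ π - τ π) ((g : ℤ) + max 0 (k - g)) := by
      rw [hπeq, sub_self]; exact low_zero _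
    refine (h.low_delta hπ (le_max_left _ _) hD hf).mono ?_
    have := le_max_right 0 (k - (g : ℤ))
    omega
  ext1 f
  rcases le_or_gt 0 (v.ord f) with hf | hf
  · exact hint f hf
  · have hinv : σ f⁻¹ = τ f⁻¹ := hint f⁻¹ (by rw [v.ord_inv]; omega)
    rw [map_inv₀, map_inv₀] at hinv
    exact inv_injective hinv

end EmbPair

section GeomSum

/-- The "geometric sum" `∑_{i<e} a^i b^(e-1-i)` of two series with the same order `o` and the
same nonzero leading coefficient `c` has order `(e-1) o` (characteristic zero). -/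
theorem geomSum_ne_zero_and_order [CharZero C] {a b : LaurentSeries C} (ha : a ≠ 0)
    (ho : a.order = b.order) (hl : a.leadingCoeff = b.leadingCoeff) (e : ℕ) (he : 0 < e) :
    (∑ i ∈ Finset.range e, a ^ i * b ^ (e - 1 - i)) ≠ 0 ∧
      (∑ i ∈ Finset.range e, a ^ i * b ^ (e - 1 - i)).order = ((e : ℤ) - 1) * a.order := by
  have hb : b ≠ 0 := by
    rw [← HahnSeries.leadingCoeff_ne_zero, ← hl]
    exact HahnSeries.leadingCoeff_ne_zero.mpr ha
  have hc : a.leadingCoeff ≠ 0 := HahnSeries.leadingCoeff_ne_zero.mpr ha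
  -- each term
  have hterm : ∀ i ∈ Finset.range e,
      (a ^ i * b ^ (e - 1 - i)).order = ((e : ℤ) - 1) * a.order ∧
        (a ^ i * b ^ (e - 1 - i)).leadingCoeff = a.leadingCoeff ^ (e - 1) := by
    intro i hi
    have hi' : i ≤ e - 1 := by
      have := Finset.mem_range.mp hi
      omega
    have hordpow : ∀ (x : LaurentSeries C), x ≠ 0 → ∀ n : ℕ, (x ^ n).order = n * x.order := by
      intro x hx n
      induction n with
      | zero => simp
      | succ n ih =>
        rw [pow_succ, HahnSeries.order_mul (pow_ne_zero _ hx) hx, ih]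
        push_cast; ring
    have hlcpow : ∀ (x : LaurentSeries C) (n : ℕ), (x ^ n).leadingCoeff = x.leadingCoeff ^ n := by
      intro x n
      induction n with
      | zero => simp
      | succ n ih => rw [pow_succ, HahnSeries.leadingCoeff_mul, ih, pow_succ]
    constructor
    · rw [HahnSeries.order_mul (pow_ne_zero _ ha) (pow_ne_zero _ hb), hordpow a ha,
        hordpow b hb, ← ho]
      have : ((e - 1 - i : ℕ) : ℤ) = (e : ℤ) - 1 - i := by omega
      rw [this]; ring
    · rw [HahnSeries.leadingCoeff_mul, hlcpow, hlcpow, ← hl, ← pow_add]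
      congr 1
      omega
  have hlow : Low (∑ i ∈ Finset.range e, a ^ i * b ^ (e - 1 - i)) (((e : ℤ) - 1) * a.order) := by
    refine Finset.sum_induction _ (fun φ => Low φ (((e : ℤ) - 1) * a.order))
      (fun _ _ h1 h2 => h1.add h2) (low_zero _) ?_
    intro i hi
    exact low_of_le_order (hterm i hi).1.ge
  have hcoeff : (∑ i ∈ Finset.range e, a ^ i * b ^ (e - 1 - i)).coeff (((e : ℤ) - 1) * a.order)
      = (e : C) * a.leadingCoeff ^ (e - 1) := by
    rw [HahnSeries.coeff_sum]
    have : ∀ i ∈ Finset.range e,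
        (a ^ i * b ^ (e - 1 - i)).coeff (((e : ℤ) - 1) * a.order) = a.leadingCoeff ^ (e - 1) := by
      intro i hi
      rw [← (hterm i hi).1, ← HahnSeries.leadingCoeff_eq, (hterm i hi).2]
    rw [Finset.sum_congr rfl this, Finset.sum_const, Finset.card_range, nsmul_eq_mul]
  have hne : (e : C) * a.leadingCoeff ^ (e - 1) ≠ 0 :=
    mul_ne_zero (Nat.cast_ne_zero.mpr he.ne') (pow_ne_zero _ hc)
  have hS0 : (∑ i ∈ Finset.range e, a ^ i * b ^ (e - 1 - i)) ≠ 0 := by
    intro h0
    rw [h0] at hcoeff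
    exact hne (by rw [← hcoeff]; rfl)
  refine ⟨hS0, le_antisymm ?_ (hlow.le_order hS0)⟩
  exact HahnSeries.order_le_of_coeff_ne_zero (by rw [hcoeff]; exact hne)

end GeomSum

namespace EmbPair

/-- **Main lemma.**  Two embeddings inducing `v`, agreeing on some `t` with `0 < ord_v t`, whose
values on a uniformizer have the same leading coefficient, are equal. -/
theorem eq_of_leadingCoeff_eq [CharZero C] (h : EmbPair v σ τ ι g) {t : F} (ht : 0 < v.ord t)
    (hst : σ t = τ t) {π : F} (hπ : v.ord π = 1)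
    (hlc : (σ π).leadingCoeff = (τ π).leadingCoeff) : σ = τ := by
  apply h.eq_of_uniformizer_eq hπ
  by_contra hne
  have hg1 : (1 : ℤ) ≤ g := by exact_mod_cast h.g_pos
  have hπ0 : π ≠ 0 := H117.ne_zero_of_ord_ne_zero v (by rw [hπ]; exact one_ne_zero)
  have ht0 : t ≠ 0 := H117.ne_zero_of_ord_ne_zero v ht.ne'
  have hσπ0 : σ π ≠ 0 := (map_ne_zero σ).mpr hπ0
  have hD0 : σ π - τ π ≠ 0 := sub_ne_zero.mpr hne
  have hoσ : (σ π).order = g := by rw [h.σ_order, hπ, mul_one]
  have hoτ : (τ π).order = g := by rw [h.τ_order, hπ, mul_one]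
  -- the order `o = g + d` of `D = σ π - τ π`, `d ≥ 1`
  have hlow1 : Low (σ π - τ π) ((g : ℤ) + 1) := by
    have := low_sub_of_leadingCoeff_eq (hoσ.trans hoτ.symm) hlc
    rwa [hoσ] at this
  have ho1 : (g : ℤ) + 1 ≤ (σ π - τ π).order := hlow1.le_order hD0
  set d : ℤ := (σ π - τ π).order - g with hd
  have hd1 : 1 ≤ d := by omega
  have hDlow : Low (σ π - τ π) ((g : ℤ) + d) := by
    have : (g : ℤ) + d = (σ π - τ π).order := by omega
    rw [this]; exact low_order _
  -- decomposition `t = π ^ e * u`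
  set e : ℕ := (v.ord t).toNat with he
  have hecast : (e : ℤ) = v.ord t := Int.toNat_of_nonneg ht.le
  have he1 : 0 < e := by omega
  set u : F := t / π ^ e with hu
  have hpow0 : π ^ e ≠ 0 := pow_ne_zero _ hπ0
  have hu0 : u ≠ 0 := div_ne_zero ht0 hpow0
  have huord : v.ord u = 0 := by
    rw [hu, H117.ord_div v ht0 hpow0, H117.ord_pow, hπ]
    omega
  have hteq : t = π ^ e * u := by rw [hu]; field_simp
  -- `δ t = 0`
  have hδt : (σ (π ^ e) - τ (π ^ e)) * σ u + τ (π ^ e) * (σ u - τ u) = 0 := by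
    rw [← delta_mul, ← hteq, hst, sub_self]
  -- first term
  obtain ⟨hS0, hSord⟩ := geomSum_ne_zero_and_order hσπ0 (hoσ.trans hoτ.symm) hlc e he1
  have hgeom : σ (π ^ e) - τ (π ^ e)
      = (∑ i ∈ Finset.range e, σ π ^ i * τ π ^ (e - 1 - i)) * (σ π - τ π) := by
    rw [map_pow, map_pow]
    exact ((Commute.all (σ π) (τ π)).geom_sum₂_mul e).symm
  have hσu0 : σ u ≠ 0 := (map_ne_zero σ).mpr hu0
  have hP0 : (σ (π ^ e) - τ (π ^ e)) * σ u ≠ 0 := by
    rw [hgeom]
    exact mul_ne_zero (mul_ne_zero hS0 hD0) hσu0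
  have hPord : ((σ (π ^ e) - τ (π ^ e)) * σ u).order = (e : ℤ) * g + d := by
    rw [hgeom, HahnSeries.order_mul (mul_ne_zero hS0 hD0) hσu0, HahnSeries.order_mul hS0 hD0,
      hSord, hoσ, h.σ_order u, huord, mul_zero, add_zero]
    rw [hd]; ring
  -- second term
  have hQlow : Low (τ (π ^ e) * (σ u - τ u)) ((g : ℤ) * e + (d + g)) := by
    have h1 : Low (τ (π ^ e)) ((g : ℤ) * e) := by
      have := h.low_τ (π ^ e)
      rwa [H117.ord_pow, hπ, mul_one] at this
    exact h1.mul (h.low_delta hπ (by omega) hDlow huord.ge)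
  -- contradiction
  have hPQ : (σ (π ^ e) - τ (π ^ e)) * σ u = -(τ (π ^ e) * (σ u - τ u)) :=
    eq_neg_of_add_eq_zero_left hδt
  have hPlow : Low ((σ (π ^ e) - τ (π ^ e)) * σ u) ((g : ℤ) * e + (d + g)) := by
    rw [hPQ]; exact hQlow.neg
  have := hPlow.le_order hP0
  rw [hPord] at this
  have hcomm : (g : ℤ) * e = (e : ℤ) * g := mul_comm _ _
  omega

end EmbPair

end Fermat.Agent.S24.H684
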