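import Fermat.Agent.S24.FF1.H684Delta
import Fermat.Agent.S24.H117.EmbPlace
import Fermat.Agent.S24.FFFinite

/-!
# S24 / FF1 (helper684): the fundamental inequality `#X ≤ ∑_{v | t} ord_v t` from local data

For `L : LocalData K F C X t` (`K` algebraically closed, `C` of characteristic zero,
`F / K(t)` finite), at most `ord_v t` of the embeddings `L.σ x` induce a given place `v`.
Summing over the places gives the inequality `hsum` needed by `H117.localThm`, without any
Dedekind-domain theory.
-/

set_option autoImplicit false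
set_option linter.style.haveILetI false

noncomputable section

open AlgebraicCurve IntermediateField

namespace Fermat.Agent.S24.H684

variable {K F : Type*} [Field K] [Field F] [Algebra K F]
variable {C : Type*} [Field C] {X : Type*}
variable {t : F} (L : LocalData K F C X t)

/-- The multiplicity of `σ x` only depends on the induced place. -/
theorem mult_eq_of_placeOf_eq {x y : X} (hxy : H117.placeOf L x = H117.placeOf L y) :
    H117.mult L x = H117.mult L y := by
  have h1 := H117.mult_mul_ord_t L x
  have h2 := H117.mult_mul_ord_t L y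
  rw [hxy] at h1
  have hpos := H117.ord_t_pos L y
  have : (H117.mult L x : ℤ) = H117.mult L y :=
    mul_right_cancel₀ hpos.ne' (h1.trans h2.symm)
  exact_mod_cast this

include L in
theorem transcendental_t [IsAlgClosed K] [Nonempty X] : Transcendental K t := by
  apply FF.transcendental_of_not_mem_range
  rintro ⟨c, hc⟩
  obtain ⟨x⟩ := ‹Nonempty X›
  have h1 := H117.ord_t_pos L x
  have h2 : (H117.placeOf L x).ord t = 0 := by
    have := H117.ord_algebraMap (H117.placeOf L x) c
    rwa [hc] at this
  omega

include L in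
/-- The residue field of every place is `K`. -/
theorem exists_const_sub_ord_pos [IsAlgClosed K] [Nonempty X] [FiniteDimensional K⟮t⟯ F]
    (v : Place K F) (f : F) (hf : 0 ≤ v.ord f) :
    ∃ c : K, f = algebraMap K F c ∨ 0 < v.ord (f - algebraMap K F c) := by
  obtain ⟨c, hc⟩ := FF.exists_const_sub_mem_nonunits v (transcendental_t L)
    ((H117.mem_iff_ord_nonneg v).mpr hf)
  refine ⟨c, ?_⟩
  rcases eq_or_ne (f - algebraMap K F c) 0 with h0 | h0
  · exact Or.inl (sub_eq_zero.mp h0)
  · exact Or.inr ((FF.ord_pos_iff_mem_nonunits v h0).mpr hc)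

/-- Two embeddings of the family inducing the same place form an `EmbPair`. -/
theorem embPair_of_placeOf_eq [IsAlgClosed K] [Nonempty X] [FiniteDimensional K⟮t⟯ F]
    {x y : X} (hxy : H117.placeOf L x = H117.placeOf L y) :
    EmbPair (H117.placeOf L x) (L.σ x) (L.σ y) L.ι (H117.mult L x) where
  g_pos := H117.mult_pos L x
  σ_const := L.σ_const x
  τ_const := L.σ_const y
  σ_order := H117.order_eq L x
  τ_order := fun f => by
    rw [H117.order_eq L y, ← hxy, mult_eq_of_placeOf_eq L hxy]
  res := exists_const_sub_ord_pos L _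

/-- The leading coefficient of `σ x u` for a unit `u` at the induced place is the image of its
residue; in particular it only depends on the place. -/
theorem leadingCoeff_unit_eq [IsAlgClosed K] [Nonempty X] [FiniteDimensional K⟮t⟯ F]
    {x y : X} (hxy : H117.placeOf L x = H117.placeOf L y) {u : F}
    (hu : (H117.placeOf L x).ord u = 0) :
    (L.σ x u).leadingCoeff = (L.σ y u).leadingCoeff := by
  have key : ∀ z : X, H117.placeOf L z = H117.placeOf L x → ∀ c : K,
      (u = algebraMap K F c ∨ 0 < (H117.placeOf L x).ord (u - algebraMap K F c)) →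
      (L.σ z u).leadingCoeff = L.ι c := by
    intro z hz c hc
    have hord : (L.σ z u).order = 0 := by
      rw [H117.order_eq L z, hz, hu, mul_zero]
    rw [HahnSeries.leadingCoeff_eq, hord]
    rcases hc with hc | hc
    · rw [hc, L.σ_const]
      simp
    · have hdec : L.σ z u = HahnSeries.C (L.ι c) + L.σ z (u - algebraMap K F c) := by
        rw [map_sub, L.σ_const]; ring
      have hlow : Low (L.σ z (u - algebraMap K F c)) 1 := by
        apply low_of_le_order
        rw [H117.order_eq L z, hz]
        have hk : (1 : ℤ) ≤ H117.mult L z := by exact_mod_cast H117.mult_pos L z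
        nlinarith
      rw [hdec, HahnSeries.coeff_add, hlow 0 one_pos, add_zero]
      simp
  obtain ⟨c, hc⟩ := exists_const_sub_ord_pos L (H117.placeOf L x) u hu.ge
  rw [key x rfl c hc, key y hxy.symm c hc]

/-- For `x, y` over the same place and a uniformizer `π`, the `e`-th powers of the leading
coefficients of `σ x π` and `σ y π` agree (`e = ord_v t`). -/
theorem leadingCoeff_pow_eq [IsAlgClosed K] [Nonempty X] [FiniteDimensional K⟮t⟯ F]
    {x y : X} (hxy : H117.placeOf L x = H117.placeOf L y) {π : F}
    (hπ : (H117.placeOf L x).ord π = 1) :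
    (L.σ x π).leadingCoeff ^ ((H117.placeOf L x).ord t).toNat
      = (L.σ y π).leadingCoeff ^ ((H117.placeOf L x).ord t).toNat := by
  set v := H117.placeOf L x with hv
  have ht := H117.ord_t_pos L x
  have hπ0 : π ≠ 0 := H117.ne_zero_of_ord_ne_zero v (by rw [hπ]; exact one_ne_zero)
  have ht0 : t ≠ 0 := H117.ne_zero_of_ord_ne_zero v ht.ne'
  set e : ℕ := (v.ord t).toNat with he
  have hecast : (e : ℤ) = v.ord t := Int.toNat_of_nonneg ht.le
  set u : F := t / π ^ e with hu
  have hpow0 : π ^ e ≠ 0 := pow_ne_zero _ hπ0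
  have hu0 : u ≠ 0 := div_ne_zero ht0 hpow0
  have huord : v.ord u = 0 := by
    rw [hu, H117.ord_div v ht0 hpow0, H117.ord_pow, hπ]
    omega
  have hteq : t = π ^ e * u := by rw [hu]; field_simp
  have hlcpow : ∀ (a : LaurentSeries C) (n : ℕ), (a ^ n).leadingCoeff = a.leadingCoeff ^ n := by
    intro a n
    induction n with
    | zero => simp
    | succ n ih => rw [pow_succ, HahnSeries.leadingCoeff_mul, ih, pow_succ]
  have hx : (L.σ x t).leadingCoeff = (L.σ x π).leadingCoeff ^ e * (L.σ x u).leadingCoeff := by
    rw [congrArg (L.σ x) hteq, map_mul, map_pow, HahnSeries.leadingCoeff_mul, hlcpow]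
  have hy : (L.σ y t).leadingCoeff = (L.σ y π).leadingCoeff ^ e * (L.σ y u).leadingCoeff := by
    rw [congrArg (L.σ y) hteq, map_mul, map_pow, HahnSeries.leadingCoeff_mul, hlcpow]
  have hu1 : (L.σ x u).leadingCoeff = (L.σ y u).leadingCoeff := leadingCoeff_unit_eq L hxy huord
  have hune : (L.σ x u).leadingCoeff ≠ 0 :=
    HahnSeries.leadingCoeff_ne_zero.mpr ((map_ne_zero (L.σ x)).mpr hu0)
  have hxy' : (L.σ x π).leadingCoeff ^ e * (L.σ x u).leadingCoeff
      = (L.σ y π).leadingCoeff ^ e * (L.σ x u).leadingCoeff := by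
    rw [← hx, L.σ_t_eq x y, hy, hu1]
  exact mul_right_cancel₀ hune hxy'

/-- On the fibre of `placeOf L` over a place, `x ↦ leadingCoeff (σ x π)` is injective. -/
theorem eq_of_leadingCoeff_eq [IsAlgClosed K] [CharZero C] [Nonempty X]
    [FiniteDimensional K⟮t⟯ F]
    {x y : X} (hxy : H117.placeOf L x = H117.placeOf L y) {π : F}
    (hπ : (H117.placeOf L x).ord π = 1)
    (hlc : (L.σ x π).leadingCoeff = (L.σ y π).leadingCoeff) : x = y :=
  L.σ_inj ((embPair_of_placeOf_eq L hxy).eq_of_leadingCoeff_eq (H117.ord_t_pos L x)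
    (L.σ_t_eq x y) hπ hlc)

/-- **Fibre bound.** At most `ord_v t` embeddings of the family induce a given place `v`. -/
theorem card_fiber_le [IsAlgClosed K] [CharZero C] [FiniteDimensional K⟮t⟯ F] [Fintype X]
    [DecidableEq (Place K F)] (v : Place K F) :
    (Finset.univ.filter (fun x => H117.placeOf L x = v)).card ≤ (v.ord t).toNat := by
  classical
  rcases (Finset.univ.filter (fun x => H117.placeOf L x = v)).eq_empty_or_nonempty with h0 | hne
  · rw [h0, Finset.card_empty]; exact Nat.zero_le _
  obtain ⟨x₀, hx₀⟩ := hne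
  have hx₀v : H117.placeOf L x₀ = v := (Finset.mem_filter.mp hx₀).2
  have : Nonempty X := ⟨x₀⟩
  obtain ⟨π, -, hπ⟩ := H117.exists_ord_eq_one v
  set e : ℕ := (v.ord t).toNat with he
  have hepos : 0 < e := by
    have := H117.ord_t_pos L x₀
    rw [hx₀v] at this
    omega
  set A : C := (L.σ x₀ π).leadingCoeff ^ e with hA
  have hmaps : ∀ x ∈ Finset.univ.filter (fun x => H117.placeOf L x = v),
      (L.σ x π).leadingCoeff ∈ (Polynomial.nthRoots e A).toFinset := by
    intro x hx
    have hxv : H117.placeOf L x = v := (Finset.mem_filter.mp hx).2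
    rw [Multiset.mem_toFinset, Polynomial.mem_nthRoots hepos, hA]
    have := leadingCoeff_pow_eq L (hxv.trans hx₀v.symm) (π := π) (by rw [hxv]; exact hπ)
    rw [hxv] at this
    exact this
  have hinj : Set.InjOn (fun x => (L.σ x π).leadingCoeff)
      (Finset.univ.filter (fun x => H117.placeOf L x = v) : Finset X) := by
    intro x hx y hy hxy
    have hxv : H117.placeOf L x = v := (Finset.mem_filter.mp (Finset.mem_coe.mp hx)).2
    have hyv : H117.placeOf L y = v := (Finset.mem_filter.mp (Finset.mem_coe.mp hy)).2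
    exact eq_of_leadingCoeff_eq L (hxv.trans hyv.symm) (π := π) (by rw [hxv]; exact hπ) hxy
  calc (Finset.univ.filter (fun x => H117.placeOf L x = v)).card
      ≤ (Polynomial.nthRoots e A).toFinset.card := Finset.card_le_card_of_injOn _ hmaps hinj
    _ ≤ Multiset.card (Polynomial.nthRoots e A) := Multiset.toFinset_card_le _
    _ ≤ e := Polynomial.card_nthRoots e A

include L in
/-- **FF1 (fundamental inequality).**  If `s` is the set of places over `t = 0`, then
`#X ≤ ∑_{v ∈ s} ord_v t`.  This is exactly the hypothesis `hsum` of `H117.localThm`. -/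
theorem card_le_sum_ord [IsAlgClosed K] [CharZero C] [Finite X] [FiniteDimensional K⟮t⟯ F]
    (s : Finset (Place K F)) (hs : ∀ v, v ∈ s ↔ 0 < v.ord t) :
    (Nat.card X : ℤ) ≤ ∑ v ∈ s, v.ord t := by
  classical
  letI : Fintype X := Fintype.ofFinite X
  have hcard : (Finset.univ : Finset X).card
      = ∑ v ∈ s, (Finset.univ.filter (fun x => H117.placeOf L x = v)).card :=
    Finset.card_eq_sum_card_fiberwise (fun x _ => (hs _).mpr (H117.ord_t_pos L x))
  rw [Nat.card_eq_fintype_card, ← Finset.card_univ, hcard, Nat.cast_sum]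
  refine Finset.sum_le_sum fun v hv => ?_
  have h1 := card_fiber_le L v
  have h2 : ((v.ord t).toNat : ℤ) = v.ord t := Int.toNat_of_nonneg ((hs v).mp hv).le
  rw [← h2]
  exact_mod_cast h1

end Fermat.Agent.S24.H684
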