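import Fermat.Agent.S24.Defs

/-!
# S24 / FF1 (helper684): coefficient vanishing below a bound for Laurent series

`Low φ k` says that all coefficients of the Laurent series `φ` in degrees `< k` vanish
(i.e. `φ ∈ z ^ k • C⟦z⟧`).  This is a convenient substitute for `k ≤ φ.order` that also behaves
well for `φ = 0`.
-/

set_option autoImplicit false

noncomputable section

namespace Fermat.Agent.S24.H684

variable {C : Type*} [Field C]

/-- All coefficients of `φ` in degrees `< k` vanish. -/
def Low (φ : LaurentSeries C) (k : ℤ) : Prop := ∀ n : ℤ, n < k → φ.coeff n = 0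

theorem Low.mono {φ : LaurentSeries C} {k l : ℤ} (h : Low φ k) (hlk : l ≤ k) : Low φ l :=
  fun n hn => h n (lt_of_lt_of_le hn hlk)

theorem low_zero (k : ℤ) : Low (0 : LaurentSeries C) k := fun _ _ => rfl

theorem Low.add {φ ψ : LaurentSeries C} {k : ℤ} (h1 : Low φ k) (h2 : Low ψ k) :
    Low (φ + ψ) k := fun n hn => by
  rw [HahnSeries.coeff_add, h1 n hn, h2 n hn, add_zero]

theorem Low.neg {φ : LaurentSeries C} {k : ℤ} (h1 : Low φ k) : Low (-φ) k := fun n hn => by
  rw [HahnSeries.coeff_neg, h1 n hn, neg_zero]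

theorem Low.sub {φ ψ : LaurentSeries C} {k : ℤ} (h1 : Low φ k) (h2 : Low ψ k) :
    Low (φ - ψ) k := by
  rw [sub_eq_add_neg]
  exact h1.add h2.neg

theorem low_of_le_order {φ : LaurentSeries C} {k : ℤ} (h : k ≤ φ.order) : Low φ k :=
  fun _ hn => HahnSeries.coeff_eq_zero_of_lt_order (lt_of_lt_of_le hn h)

theorem low_order (φ : LaurentSeries C) : Low φ φ.order := low_of_le_order le_rfl

theorem Low.le_order {φ : LaurentSeries C} {k : ℤ} (h : Low φ k) (hφ : φ ≠ 0) : k ≤ φ.order := by
  by_contra hlt
  push Not at hlt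
  have h0 := h _ hlt
  rw [← HahnSeries.leadingCoeff_eq] at h0
  exact hφ (HahnSeries.leadingCoeff_eq_zero.mp h0)

theorem Low.mul {φ ψ : LaurentSeries C} {k l : ℤ} (h1 : Low φ k) (h2 : Low ψ l) :
    Low (φ * ψ) (k + l) := by
  rcases eq_or_ne φ 0 with rfl | hφ
  · rw [zero_mul]; exact low_zero _
  rcases eq_or_ne ψ 0 with rfl | hψ
  · rw [mul_zero]; exact low_zero _
  apply low_of_le_order
  rw [HahnSeries.order_mul hφ hψ]
  exact add_le_add (h1.le_order hφ) (h2.le_order hψ)

theorem eq_zero_of_forall_low {φ : LaurentSeries C} (h : ∀ k : ℤ, Low φ k) : φ = 0 := by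
  ext n
  exact h (n + 1) n (lt_add_one n)

/-- If `φ` is low at `k` and has zero coefficient at `k`, it is low at `k + 1`. -/
theorem Low.succ {φ : LaurentSeries C} {k : ℤ} (h : Low φ k) (hk : φ.coeff k = 0) :
    Low φ (k + 1) := fun n hn => by
  rcases (Int.lt_add_one_iff.mp hn).lt_or_eq with h1 | h1
  · exact h n h1
  · rw [h1]; exact hk

/-- The difference of two series with the same order and the same leading coefficient is low
one step above the common order. -/
theorem low_sub_of_leadingCoeff_eq {φ ψ : LaurentSeries C} (ho : φ.order = ψ.order)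
    (hl : φ.leadingCoeff = ψ.leadingCoeff) : Low (φ - ψ) (φ.order + 1) := by
  apply Low.succ
  · exact (low_order φ).sub (ho ▸ low_order ψ)
  · rw [HahnSeries.coeff_sub, ← HahnSeries.leadingCoeff_eq]
    conv_lhs => rw [ho, ← HahnSeries.leadingCoeff_eq, hl]
    exact sub_self _

end Fermat.Agent.S24.H684
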